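import Fermat.Agent.Curve26.Field
import Fermat.Agent.Curve50.Descent
import Fermat.Agent.TwoDescent.Short

/-!
# Two-descent on `W² = X³ + 49 X² + 728 X + 2704`

For a rational point `X - θ` is a square in the cubic field, so every point is twice a point.
-/

set_option autoImplicit false
set_option linter.style.haveILetI false
set_option linter.unusedSimpArgs false
set_option linter.unusedTactic false

noncomputable section

open NumberField WeierstrassCurve
open FA.Torsion (shortCurve shortCurve_equation)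

namespace FA.Curve26

/-- The root of `X³ + 49 X² + 728 X + 2704`. -/
def theta : K := phi ^ 2 + 6 * phi - 17

/-- The root as an algebraic integer. -/
def thetaO : 𝓞 K := phiO ^ 2 + 6 * phiO - 17

theorem coe_thetaO : (thetaO : K) = theta := by simp [thetaO, theta, map_ofNat]

theorem theta_eq : theta ^ 3 + 49 * theta ^ 2 + 728 * theta + 2704 = 0 := by
  simp only [theta]
  linear_combination (phi ^ 3 + 18 * phi ^ 2 + 107 * phi + 212) * phi_eq

theorem thetaO_eq : thetaO ^ 3 + 49 * thetaO ^ 2 + 728 * thetaO + 2704 = 0 :=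
  RingOfIntegers.ext (by simpa [coe_thetaO, map_ofNat] using theta_eq)

theorem el_sub_theta (X : ℚ) : (X : K) - theta = el (X + 17) (-6) (-1) := by
  simp [theta, el]; ring

theorem theta_sq : theta ^ 2 = 313 - 190 * phi + 3 * phi ^ 2 := by
  simp only [theta]
  linear_combination (phi + 12) * phi_eq

theorem quad_theta_eq_zero {a b c : ℚ}
    (h : (a : K) * theta ^ 2 + (b : K) * theta + (c : K) = 0) : a = 0 ∧ b = 0 ∧ c = 0 := by
  have h' : el (c - 17 * b + 313 * a) (6 * b - 190 * a) (b + 3 * a) = el 0 0 0 := by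
    rw [theta_sq] at h
    simp only [theta] at h
    simp [el]
    linear_combination h
  obtain ⟨h0, h1, h2⟩ := el_inj h'
  exact ⟨by linarith, by linarith, by linarith⟩

/-- **The two-descent**: `X - θ` is a square for every rational point. -/
theorem sub_theta_isSquare {X W : ℚ} (h : W ^ 2 = X ^ 3 + 49 * X ^ 2 + 728 * X + 2704) :
    ∃ s : K, (X : K) - theta = s ^ 2 := by
  haveI := isPrincipalIdealRing_K
  set n := X.num
  set q : ℤ := (X.den : ℤ) with hqd
  have hq : 0 < q := Int.natCast_pos.2 X.den_pos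
  have hq0 : (q : ℚ) ≠ 0 := by exact_mod_cast hq.ne'
  have hX : X * (q : ℚ) = (n : ℚ) := by
    rw [hqd, Int.cast_natCast]; exact Rat.mul_den_eq_num X
  have hco : IsCoprime n q := Int.isCoprime_iff_gcd_eq_one.2 X.reduced
  set H : ℤ := n ^ 3 + 49 * n ^ 2 * q + 728 * n * q ^ 2 + 2704 * q ^ 3 with hH
  have hXne : (X : K) - theta ≠ 0 := fun e => by
    rw [el_sub_theta, show (0 : K) = el 0 0 0 by simp [el]] at e
    have := (el_inj e).2.1
    norm_num at this
  have hnorm : Algebra.norm ℚ ((X : K) - theta) = X ^ 3 + 49 * X ^ 2 + 728 * X + 2704 := by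
    rw [el_sub_theta, norm_el]; ring
  have hW : W ≠ 0 := fun e => by
    rw [e] at h
    exact (Algebra.norm_ne_zero_iff.mpr hXne) (by rw [hnorm, ← h]; ring)
  obtain ⟨M, hM⟩ : ∃ M : ℤ, M ^ 2 = q * H := by
    have h1 : IsSquare ((q * H : ℤ) : ℚ) := ⟨W * (q : ℚ) ^ 2, by
      rw [hH]; push_cast; rw [← hX]
      linear_combination -(q : ℚ) ^ 4 * h⟩
    obtain ⟨M, hM⟩ := Rat.isSquare_intCast_iff.1 h1
    exact ⟨M, by rw [hM, sq]⟩
  have hqH : IsCoprime q H := by
    have := (hco.pow_left (m := 3)).symm.add_mul_left_right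
      (49 * n ^ 2 + 728 * n * q + 2704 * q ^ 2)
    rwa [show n ^ 3 + q * (49 * n ^ 2 + 728 * n * q + 2704 * q ^ 2) = H by rw [hH]; ring] at this
  have hHq : (H : ℚ) = W ^ 2 * (q : ℚ) ^ 3 := by
    rw [hH]; push_cast; rw [← hX]; linear_combination -(q : ℚ) ^ 3 * h
  have hHpos : 0 < H := by
    have : (0 : ℚ) < H := by
      rw [hHq]
      have : (0 : ℚ) < q := by exact_mod_cast hq
      positivity
    exact_mod_cast this
  obtain ⟨d, hd | hd⟩ := Int.sq_of_isCoprime hqH hM.symm
  swap
  · nlinarith [sq_nonneg d]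
  obtain ⟨b, hb | hb⟩ := Int.sq_of_isCoprime hqH.symm ((mul_comm H q).trans hM.symm)
  swap
  · nlinarith [sq_nonneg b]
  set γ : 𝓞 K := (n : 𝓞 K) - thetaO * (q : 𝓞 K) with hγ
  set G : 𝓞 K := (n : 𝓞 K) ^ 2 + (thetaO + 49) * (n : 𝓞 K) * (q : 𝓞 K) +
    (thetaO ^ 2 + 49 * thetaO + 728) * (q : 𝓞 K) ^ 2 with hG
  have hγK : (γ : K) = ((q : ℚ) : K) * ((X : K) - theta) := by
    have hXK : (X : K) * ((q : ℚ) : K) = ((n : ℚ) : K) := by exact_mod_cast hX
    simp [hγ, coe_thetaO]
    push_cast at hXK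
    linear_combination -hXK
  have hγ0 : γ ≠ 0 := fun e => by
    rw [e] at hγK
    simp only [map_zero] at hγK
    rcases mul_eq_zero.mp hγK.symm with e' | e'
    · exact hq0 (by exact_mod_cast e')
    · exact hXne e'
  have hγG : γ * G = (b : 𝓞 K) ^ 2 := by
    have hH' : ((H : ℤ) : 𝓞 K) = (b : 𝓞 K) ^ 2 := by rw [hb]; push_cast; rfl
    rw [← hH', hH, hγ, hG]
    push_cast
    linear_combination -(q : 𝓞 K) ^ 3 * thetaO_eq
  have htwo : (2 : 𝓞 K) = phiO * rhoO ^ 2 * (phiO ^ 2 + phiO + 1) := by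
    simp only [rhoO]
    linear_combination -(phiO ^ 2 - phiO + 1) * phiO_eq
  have hcommon : ∀ P : 𝓞 K, Prime P → P ∣ γ → P ∣ G → P ∣ phiO ∨ P ∣ rhoO ∨ P ∣ piThirteen := by
    intro P hP h1 h2
    have h3 : P ∣ (1 + 18 * phiO + 107 * phiO ^ 2) * (q : 𝓞 K) ^ 2 := by
      have := dvd_sub h2 (dvd_mul_of_dvd_left h1
        ((n : 𝓞 K) + thetaO * (q : 𝓞 K) + (thetaO + 49) * (q : 𝓞 K)))
      convert this using 1
      simp only [hγ, hG, thetaO]
      linear_combination -(3 * phiO + 36) * (q : 𝓞 K) ^ 2 * phiO_eq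
    rcases hP.dvd_or_dvd h3 with hw | hq'
    swap
    · have h5 := hP.dvd_of_dvd_pow hq'
      have h6 : P ∣ (n : 𝓞 K) := by
        have := dvd_add h1 (dvd_mul_of_dvd_right h5 thetaO)
        rwa [hγ, sub_add_cancel] at this
      exact absurd ((hco.map (Int.castRingHom (𝓞 K))).isUnit_of_dvd' h6 h5) hP.not_isUnit
    have h4 : P ∣ (2 : 𝓞 K) ^ 6 * (13 : 𝓞 K) ^ 2 := by
      refine hw.trans ⟨18 + 55 * phiO - 27 * phiO ^ 2, ?_⟩
      linear_combination -(-2889 * phiO + 5399) * phiO_eq
    rcases hP.dvd_or_dvd h4 with h4 | h4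
    · have h5 := hP.dvd_of_dvd_pow h4
      rw [htwo] at h5
      rcases hP.dvd_or_dvd h5 with h5 | h5
      · rcases hP.dvd_or_dvd h5 with h5 | h5
        · exact Or.inl h5
        · exact Or.inr (Or.inl (hP.dvd_of_dvd_pow h5))
      · exact absurd (isUnit_of_dvd_unit h5 epsU.isUnit) hP.not_isUnit
    · refine Or.inr (Or.inr (hP.dvd_of_dvd_pow (n := 2) ?_))
      have := dvd_add (dvd_mul_of_dvd_left (hP.dvd_of_dvd_pow h4)
        (-3 - 18 * phiO - 8 * phiO ^ 2)) (dvd_mul_of_dvd_left hw (phiO ^ 2))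
      convert this using 1
      simp only [piThirteen]
      linear_combination (-106 * phiO - 20) * phiO_eq
  obtain ⟨u, j, k, l, t, ht⟩ :=
    FA.Curve50.decomp_of_mul_eq_sq prime_phiO prime_rhoO prime_piThirteen γ G _ hγ0 hγG hcommon
  obtain ⟨e, i, η, he, hi, hu⟩ := unit_eq u
  obtain ⟨j', j₀, hj, rfl⟩ : ∃ j' j₀, j₀ < 2 ∧ j = j₀ + 2 * j' :=
    ⟨j / 2, j % 2, Nat.mod_lt _ two_pos, (Nat.mod_add_div j 2).symm⟩
  obtain ⟨k', k₀, hk, rfl⟩ : ∃ k' k₀, k₀ < 2 ∧ k = k₀ + 2 * k' :=
    ⟨k / 2, k % 2, Nat.mod_lt _ two_pos, (Nat.mod_add_div k 2).symm⟩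
  obtain ⟨l', l₀, hl, rfl⟩ : ∃ l' l₀, l₀ < 2 ∧ l = l₀ + 2 * l' :=
    ⟨l / 2, l % 2, Nat.mod_lt _ two_pos, (Nat.mod_add_div l 2).symm⟩
  set T : K := η * (phiO : K) ^ j' * (rhoO : K) ^ k' * (piThirteen : K) ^ l' * (t : K) with hT
  have hγT : (γ : K) =
      e * eps ^ i * (phiO : K) ^ j₀ * (rhoO : K) ^ k₀ * (piThirteen : K) ^ l₀ * T ^ 2 := by
    rw [ht, hT]; simp only [map_mul, map_pow, hu]; ring
  have hd0 : (d : ℚ) ≠ 0 := by
    intro e'
    rw [hd, Int.cast_pow, e'] at hq0
    exact hq0 (by norm_num)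
  set S : K := T / ((d : ℚ) : K) with hS
  have hXT : (X : K) - theta =
      e * eps ^ i * (phiO : K) ^ j₀ * (rhoO : K) ^ k₀ * (piThirteen : K) ^ l₀ * S ^ 2 := by
    have hdK : ((d : ℚ) : K) ≠ 0 := by exact_mod_cast hd0
    rw [hS, div_pow, ← mul_div_assoc, ← hγT, hγK, hd, eq_div_iff (pow_ne_zero _ hdK)]
    push_cast
    ring
  have hS0 : S ≠ 0 := fun e' => hXne (by rw [hXT, e']; ring)
  set N := Algebra.norm ℚ S
  have hn := congrArg (Algebra.norm ℚ) hXT
  rw [hnorm, ← h, map_mul, map_mul, map_mul, map_mul, map_mul, map_pow, map_pow, map_pow, map_pow,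
    map_pow, coe_phiO, norm_phi, norm_rho, norm_piThirteen, norm_eps, one_pow] at hn
  norm_num at hn
  have notsq : ∀ r : ℤ, ¬ IsSquare r → W ^ 2 ≠ (r : ℚ) * N ^ 2 := fun r hr e' => by
    have hN0 : N ≠ 0 := Algebra.norm_ne_zero_iff.mpr hS0
    exact hr (Rat.isSquare_intCast_iff.1 ⟨W / N, by field_simp; linear_combination -e'⟩)
  have bad : ∀ r : ℤ, r ∈ [-1, 2, -2, -4, 13, -13, 26, -26, 52, -52] →
      W ^ 2 ≠ (r : ℚ) * N ^ 2 := by
    intro r hr
    refine notsq r ?_
    fin_cases hr <;> decide +kernel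
  have kill : ∀ {u₀ u₁ u₂ : ℤ}, Obstructed u₀ u₁ u₂ →
      (X : K) - theta = el u₀ u₁ u₂ * S ^ 2 → False := fun hobs e' =>
    ne_mul_sq hobs hS0 (X + 17) 1 (by rw [← e', el_sub_theta]; norm_num)
  have hphi : (phiO : K) = phi := rfl
  have hrho : (rhoO : K) = phi - 1 := by simp [rhoO]
  interval_cases j₀ <;> interval_cases k₀ <;> interval_cases l₀ <;> rcases he with rfl | rfl <;>
    simp only [map_one, norm_neg_one] at hn <;>
    first
      | exact absurd (by push_cast; linarith) (bad (-1) (by simp))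
      | exact absurd (by push_cast; linarith) (bad 2 (by simp))
      | exact absurd (by push_cast; linarith) (bad (-2) (by simp))
      | exact absurd (by push_cast; linarith) (bad (-4) (by simp))
      | exact absurd (by push_cast; linarith) (bad 13 (by simp))
      | exact absurd (by push_cast; linarith) (bad (-13) (by simp))
      | exact absurd (by push_cast; linarith) (bad 26 (by simp))
      | exact absurd (by push_cast; linarith) (bad (-26) (by simp))
      | exact absurd (by push_cast; linarith) (bad 52 (by simp))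
      | exact absurd (by push_cast; linarith) (bad (-52) (by simp))
      | (interval_cases i
         · first
             | (refine ⟨S, ?_⟩
                rw [hXT]
                simp
                done)
             | (refine (kill obstructed_phiRho ?_).elim
                rw [hXT, hphi, hrho]
                simp only [el, pow_one, pow_zero, mul_one]
                push_cast
                ring1
                done)
         · first
             | (refine (kill obstructed_eps ?_).elim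
                rw [hXT, eps_eq]
                simp
                done)
             | (refine (kill obstructed_epsPhiRho ?_).elim
                rw [hXT, hphi, hrho]
                simp only [el, eps, pow_one, pow_zero, mul_one]
                push_cast
                linear_combination phi * S ^ 2 * phi_eq))

/-- The powers of `θ` span the field. -/
theorem span_theta (k : K) :
    ∃ x y z : ℚ, k = (x : K) + (y : K) * theta + (z : K) * theta ^ 2 := by
  obtain ⟨x, y, z, rfl⟩ := exists_el k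
  refine ⟨x + 17 * (z - 3 * ((6 * z - y) / 208)) - 313 * ((6 * z - y) / 208),
    z - 3 * ((6 * z - y) / 208), (6 * z - y) / 208, ?_⟩
  simp only [el, theta_sq]
  simp only [theta]
  push_cast
  ring

/-- Every point is twice a point. -/
theorem exists_half (P : (shortCurve (49 : ℚ) 728 2704).toAffine.Point)
    [(shortCurve (49 : ℚ) 728 2704).IsElliptic] : ∃ R, 2 • R = P := by
  rcases P with _ | ⟨X, W, hP⟩
  · exact ⟨0, by rw [nsmul_zero]; rfl⟩
  obtain ⟨s, hs⟩ := sub_theta_isSquare
    (show W ^ 2 = X ^ 3 + 49 * X ^ 2 + 728 * X + 2704 by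
      linear_combination shortCurve_equation hP)
  exact FA.TwoDescent.exists_half (by push_cast; linear_combination theta_eq)
    (fun _ _ _ h => quad_theta_eq_zero h) span_theta (hP := hP) hs

end FA.Curve26

end
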