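import Mathlib.NumberTheory.NumberField.ClassNumber
import Mathlib.NumberTheory.NumberField.Units.DirichletTheorem
import Mathlib.NumberTheory.NumberField.Discriminant.Basic
import Mathlib.Algebra.Polynomial.SpecificDegree
import Mathlib.RingTheory.Ideal.Norm.AbsNorm
import Mathlib.Analysis.Real.Pi.Bounds
import Mathlib.Tactic.NormNum.Prime

/-!
# The cubic field of discriminant `-104`

`K = ℚ(φ)` with `φ³ - φ - 2 = 0`, the field of the points of order two of a curve of conductor `26`: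
class number one and units `± (φ² + φ + 1)^k` up to squares.
-/

set_option autoImplicit false
set_option linter.style.haveILetI false
set_option linter.unusedSimpArgs false

noncomputable section

open Polynomial NumberField Module

namespace FA.Curve26

/-- The polynomial of `φ`. -/
def fK : ℚ[X] := X ^ 3 - X - C 2

theorem fK_monic : fK.Monic := by unfold fK; monicity!

theorem natDegree_fK : fK.natDegree = 3 := by unfold fK; compute_degree!

theorem no_root_three : ∀ a : ZMod 3, a ^ 3 - a - 2 ≠ 0 := by decide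

theorem no_rat_root (x : ℚ) : x ^ 3 - x - 2 ≠ 0 := by
  intro hx
  have hint : IsIntegral ℤ x :=
    ⟨X ^ 3 - X - C 2, by monicity!, by simpa using hx⟩
  obtain ⟨n, rfl⟩ := IsIntegrallyClosed.isIntegral_iff.1 hint
  have hn : n ^ 3 - n - 2 = 0 := by
    rw [eq_intCast] at hx
    exact_mod_cast hx
  exact no_root_three (n : ZMod 3) (by exact_mod_cast congrArg (Int.cast : ℤ → ZMod 3) hn)

theorem fK_irreducible : Irreducible fK := by
  rw [fK_monic.irreducible_iff_roots_eq_zero_of_degree_le_three (by rw [natDegree_fK]; omega)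
    (by rw [natDegree_fK])]
  refine Multiset.eq_zero_of_forall_notMem fun x hx => no_rat_root x ?_
  have := (mem_roots'.mp hx).2
  simpa [fK] using this

instance fact_fK : Fact (Irreducible fK) := ⟨fK_irreducible⟩

/-- The cubic field. -/
abbrev K : Type := AdjoinRoot fK

/-- The root. -/
abbrev phi : K := AdjoinRoot.root fK

instance charZero_K : CharZero K := charZero_of_injective_algebraMap (algebraMap ℚ K).injective

instance finiteDimensional_K : FiniteDimensional ℚ K :=
  (AdjoinRoot.powerBasis fK_monic.ne_zero).finite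

instance numberField_K : NumberField K := {}

theorem phi_eq : phi ^ 3 - phi - 2 = 0 := by
  have h : aeval phi fK = 0 := (AdjoinRoot.aeval_eq fK).trans AdjoinRoot.mk_self
  simpa [fK, map_ofNat] using h

theorem finrank_K : finrank ℚ K = 3 := by
  rw [(AdjoinRoot.powerBasis fK_monic.ne_zero).finrank, AdjoinRoot.powerBasis_dim, natDegree_fK]

/-- The basis `1, φ, φ²`. -/
def basisK : Basis (Fin 3) ℚ K :=
  (AdjoinRoot.powerBasis fK_monic.ne_zero).basis.reindex
    (finCongr (by rw [AdjoinRoot.powerBasis_dim, natDegree_fK]))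

theorem basisK_apply (j : Fin 3) : basisK j = phi ^ (j : ℕ) := by simp [basisK, phi]

/-- The element `x + y φ + z φ²`. -/
def el (x y z : ℚ) : K := (x : K) + (y : K) * phi + (z : K) * phi ^ 2

theorem el_eq_sum (x y z : ℚ) : el x y z = ∑ i, ![x, y, z] i • basisK i := by
  simp [el, Fin.sum_univ_three, basisK_apply, Algebra.smul_def]

theorem el_inj {x y z x' y' z' : ℚ} (h : el x y z = el x' y' z') :
    x = x' ∧ y = y' ∧ z = z' := by
  rw [el_eq_sum, el_eq_sum] at h
  have e : ∀ c : Fin 3 → ℚ, ⇑(basisK.repr (∑ i, c i • basisK i)) = c := fun c =>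
    funext fun i => by rw [Basis.repr_sum_self]
  have := e ![x, y, z]
  rw [h, e] at this
  have h0 := congrFun this 0
  have h1 := congrFun this 1
  have h2 := congrFun this 2
  simp at h0 h1 h2
  exact ⟨h0.symm, h1.symm, h2.symm⟩

theorem exists_el (k : K) : ∃ x y z : ℚ, k = el x y z :=
  ⟨basisK.repr k 0, basisK.repr k 1, basisK.repr k 2, by
    conv_lhs => rw [← basisK.sum_repr k]
    simp [el, Fin.sum_univ_three, basisK_apply, Algebra.smul_def]⟩

theorem el_mul (x y z x' y' z' : ℚ) : el x y z * el x' y' z' =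
    el (x * x' + 2 * (y * z' + z * y')) (x * y' + y * x' + (y * z' + z * y') + 2 * (z * z'))
      (x * z' + y * y' + z * x' + z * z') := by
  simp only [el]
  push_cast
  linear_combination ((y : K) * z' + z * y' + z * z' * phi) * phi_eq

theorem leftMul_el (x y z : ℚ) : Algebra.leftMulMatrix basisK (el x y z) =
    !![x, 2 * z, 2 * y; y, x + z, y + 2 * z; z, y, x + z] := by
  ext i j
  rw [Algebra.leftMulMatrix_eq_repr_mul, basisK_apply]
  have hcol : el x y z * phi ^ (j : ℕ) = ∑ k, !![x, 2 * z, 2 * y; y, x + z, y + 2 * z;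
      z, y, x + z] k j • basisK k := by
    fin_cases j <;> simp [el, Fin.sum_univ_three, basisK_apply, Algebra.smul_def, map_ofNat]
    · linear_combination (z : K) * phi_eq
    · linear_combination ((z : K) * phi + y) * phi_eq
  rw [hcol, Basis.repr_sum_self]

theorem norm_el (x y z : ℚ) : Algebra.norm ℚ (el x y z) =
    x * ((x + z) * (x + z) - (y + 2 * z) * y) - 2 * z * (y * (x + z) - (y + 2 * z) * z) +
      2 * y * (y * y - (x + z) * z) := by
  rw [Algebra.norm_eq_matrix_det basisK, leftMul_el, Matrix.det_fin_three]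
  simp
  ring

theorem isIntegral_phi : IsIntegral ℤ phi :=
  ⟨X ^ 3 - X - C 2, by monicity!, by simpa using phi_eq⟩

/-- The root as an algebraic integer. -/
def phiO : 𝓞 K := ⟨phi, isIntegral_phi⟩

@[simp] theorem coe_phiO : (phiO : K) = phi := rfl

theorem phiO_eq : phiO ^ 3 - phiO - 2 = 0 :=
  RingOfIntegers.ext (by simpa [map_ofNat] using phi_eq)

/-! ### The discriminant and the class number -/

theorem discr_powers : Algebra.discr ℚ (fun j : Fin 3 => phi ^ (j : ℕ)) = -104 := by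
  have htr : ∀ x y z : ℚ, Algebra.trace ℚ K (el x y z) = 3 * x + 2 * z := fun x y z => by
    rw [Algebra.trace_eq_matrix_trace basisK, leftMul_el, Matrix.trace_fin_three]
    simp
    ring
  have hM : Algebra.traceMatrix ℚ (fun j : Fin 3 => phi ^ (j : ℕ)) =
      !![3, 0, 2; 0, 2, 6; 2, 6, 2] := by
    ext i j
    rw [Algebra.traceMatrix_apply, Algebra.traceForm_apply, ← pow_add]
    have h0 : phi ^ 0 = el 1 0 0 := by simp [el]
    have h1 : phi ^ 1 = el 0 1 0 := by simp [el]
    have h2 : phi ^ 2 = el 0 0 1 := by simp [el]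
    have h3 : phi ^ 3 = el 2 1 0 := by
      simp [el]; linear_combination phi_eq
    have h4 : phi ^ 4 = el 0 2 1 := by
      simp [el]; linear_combination phi * phi_eq
    have ht1 : Algebra.trace ℚ K 1 = 3 := by
      simpa [el] using htr 1 0 0
    have htp : Algebra.trace ℚ K phi = 0 := by
      simpa [el] using htr 0 1 0
    fin_cases i <;> fin_cases j <;> norm_num [ht1, htp, h0, h1, h2, h3, h4, htr]
  rw [Algebra.discr_def, hM, Matrix.det_fin_three]
  simp
  norm_num

theorem abs_discr_le : |discr K| ≤ 104 := by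
  classical
  set b : Fin 3 → K := fun j => phi ^ (j : ℕ) with hb
  have hint : ∀ i, IsIntegral ℤ (b i) := fun i => isIntegral_phi.pow _
  let e : Fin 3 ≃ Free.ChooseBasisIndex ℤ (𝓞 K) := Fintype.equivOfCardEq (by
    rw [Fintype.card_fin, ← finrank_K, ← Module.finrank_eq_card_basis (integralBasis K)])
  let bas := (integralBasis K).reindex e.symm
  let P₀ : Matrix (Fin 3) (Fin 3) ℤ := fun i j =>
    (RingOfIntegers.basis K).repr (⟨b j, hint j⟩ : 𝓞 K) (e i)
  have hP : bas.toMatrix b = P₀.map (algebraMap ℤ ℚ) := by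
    ext i j
    rw [Basis.toMatrix_apply, Basis.repr_reindex_apply, Matrix.map_apply, e.symm_symm]
    exact integralBasis_repr_apply K (⟨b j, hint j⟩ : 𝓞 K) (e i)
  have h := Algebra.discr_of_matrix_vecMul (A := ℚ) (bas : Fin 3 → K) (bas.toMatrix b)
  rw [Basis.toMatrix_map_vecMul, Basis.coe_reindex, e.symm_symm,
    show (integralBasis K : _ → K) ∘ e = (integralBasis K) ∘ ⇑e.symm.symm from rfl,
    Algebra.discr_reindex, ← coe_discr, hP,
    show P₀.map (algebraMap ℤ ℚ) = (algebraMap ℤ ℚ).mapMatrix P₀ from rfl, ← RingHom.map_det,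
    hb, discr_powers] at h
  have h' : (-104 : ℤ) = P₀.det ^ 2 * discr K := by
    rw [eq_intCast] at h
    exact_mod_cast h
  exact Int.le_of_dvd (by norm_num) ((abs_dvd _ _).mpr ⟨-P₀.det ^ 2, by linear_combination -h'⟩)

/-! ### Signature -/

theorem nrRealPlaces_le_one : InfinitePlace.nrRealPlaces K ≤ 1 := by
  classical
  rw [InfinitePlace.nrRealPlaces, Fintype.card_le_one_iff]
  rintro ⟨w, hw⟩ ⟨w', hw'⟩
  apply Subtype.ext
  set σ := InfinitePlace.embedding_of_isReal hw with hσ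
  set τ := InfinitePlace.embedding_of_isReal hw' with hτ
  have h1 : σ phi ^ 3 - σ phi - 2 = 0 := by
    simpa [map_ofNat] using congrArg σ phi_eq
  have h2 : τ phi ^ 3 - τ phi - 2 = 0 := by
    simpa [map_ofNat] using congrArg τ phi_eq
  have he : σ phi = τ phi := by
    by_contra hne
    have h3 : σ phi ^ 2 + σ phi * τ phi + τ phi ^ 2 - 1 = 0 :=
      (mul_eq_zero.mp (show (σ phi - τ phi) * (σ phi ^ 2 + σ phi * τ phi + τ phi ^ 2 - 1) = 0 by
        linear_combination h1 - h2)).resolve_left (sub_ne_zero.mpr hne)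
    have hs : 1 < σ phi := by
      by_contra hle
      nlinarith [sq_nonneg (σ phi + 1), sq_nonneg (σ phi)]
    have ht : 1 < τ phi := by
      by_contra hle
      nlinarith [sq_nonneg (τ phi + 1), sq_nonneg (τ phi)]
    nlinarith [mul_pos (show (0 : ℝ) < σ phi by linarith) (show (0 : ℝ) < τ phi by linarith)]
  refine (InfinitePlace.mk_embedding w).symm.trans ((congrArg InfinitePlace.mk ?_).trans
    (InfinitePlace.mk_embedding w'))
  refine RingHom.ext fun k => ?_
  obtain ⟨x, y, z, rfl⟩ := exists_el k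
  have e1 : ((σ phi : ℝ) : ℂ) = w.embedding phi := InfinitePlace.embedding_of_isReal_apply hw phi
  have e2 : ((τ phi : ℝ) : ℂ) = w'.embedding phi := InfinitePlace.embedding_of_isReal_apply hw' phi
  simp only [el, map_add, map_mul, map_pow, map_ratCast, ← e1, ← e2, he]

theorem signature : InfinitePlace.nrRealPlaces K = 1 ∧ InfinitePlace.nrComplexPlaces K = 1 := by
  have h := InfinitePlace.card_add_two_mul_card_eq_rank K
  have := nrRealPlaces_le_one
  rw [finrank_K] at h
  omega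

theorem prime_of_norm {π : 𝓞 K} {n : ℤ} (hn : n.natAbs.Prime)
    (h : Algebra.norm ℚ (π : K) = n) : Prime π := by
  have h' : Algebra.norm ℤ π = n := by
    rw [← Algebra.coe_norm_int] at h; exact_mod_cast h
  have hπ : π ≠ 0 := fun e => by
    rw [e, Algebra.norm_zero] at h'
    rw [← h'] at hn
    exact Nat.not_prime_zero hn
  rw [← Ideal.span_singleton_prime hπ]
  refine Ideal.isPrime_of_irreducible_absNorm ?_
  rw [Ideal.absNorm_span_singleton, h']
  exact hn.prime.irreducible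

theorem norm_phi : Algebra.norm ℚ phi = 2 := by
  rw [show phi = el 0 1 0 by simp [el], norm_el]
  norm_num

theorem prime_phiO : Prime phiO :=
  prime_of_norm (n := 2) (by norm_num) (by rw [coe_phiO, norm_phi]; norm_num)

/-- The second prime over `2`. -/
def rhoO : 𝓞 K := phiO - 1

theorem norm_rho : Algebra.norm ℚ (rhoO : K) = 2 := by
  rw [show (rhoO : K) = el (-1) 1 0 by simp [rhoO, el]; ring, norm_el]
  norm_num

theorem prime_rhoO : Prime rhoO :=
  prime_of_norm (n := 2) (by norm_num) (by rw [norm_rho]; norm_num)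

/-- The ramified prime over `13`. -/
def piThirteen : 𝓞 K := phiO ^ 2 - phiO + 1

theorem norm_piThirteen : Algebra.norm ℚ (piThirteen : K) = 13 := by
  rw [show (piThirteen : K) = el 1 (-1) 1 by simp [piThirteen, el]; ring, norm_el]
  norm_num

theorem prime_piThirteen : Prime piThirteen :=
  prime_of_norm (n := 13) (by norm_num) (by rw [norm_piThirteen]; norm_num)

/-- An ideal generated by a prime element is maximal. -/
theorem eq_span_of_mem {π : 𝓞 K} (hπ : Prime π) {I : Ideal (𝓞 K)} (hI : I.IsPrime)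
    (hmem : π ∈ I) : I.IsPrincipal := by
  have hmax : (Ideal.span {π}).IsMaximal :=
    ((Ideal.span_singleton_prime hπ.ne_zero).mpr hπ).isMaximal
      (by simpa [Ideal.span_singleton_eq_bot] using hπ.ne_zero)
  exact ⟨⟨π, (hmax.eq_of_le hI.ne_top ((Ideal.span_singleton_le_iff_mem _).mpr hmem)).symm⟩⟩

theorem isPrincipalIdealRing_K : IsPrincipalIdealRing (𝓞 K) := by
  refine RingOfIntegers.isPrincipalIdealRing_of_isPrincipal_of_norm_le_of_isPrime fun I hI hN => ?_
  have hlt : (4 / Real.pi) ^ InfinitePlace.nrComplexPlaces K *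
      ((Nat.factorial (finrank ℚ K)) / (finrank ℚ K : ℝ) ^ (finrank ℚ K) * √|(discr K : ℝ)|) <
        3 := by
    rw [signature.2, finrank_K, pow_one, show Nat.factorial 3 = 6 from rfl]
    have hs : √|(discr K : ℝ)| ≤ 102 / 10 := by
      rw [← Real.sqrt_sq (show (0 : ℝ) ≤ 102 / 10 by norm_num)]
      refine Real.sqrt_le_sqrt ?_
      rw [← Int.cast_abs]
      exact le_trans (Int.cast_le.2 abs_discr_le) (by norm_num)
    have hpi : 4 / Real.pi < 13 / 10 := by
      rw [div_lt_div_iff₀ Real.pi_pos (by norm_num)]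
      nlinarith [Real.pi_gt_d2]
    calc _ ≤ (13 / 10 : ℝ) * (6 / 3 ^ 3 * (102 / 10)) := by push_cast; gcongr
      _ < 3 := by norm_num
  set n := Ideal.absNorm (I : Ideal (𝓞 K)) with hn
  have hn3 : n < 3 := by
    have : ((n : ℕ) : ℝ) < ((3 : ℕ) : ℝ) := by push_cast; exact hN.trans_lt hlt
    exact_mod_cast this
  have h0 : n ≠ 0 := by rw [hn, Ne, Ideal.absNorm_eq_zero_iff]; exact nonZeroDivisors.coe_ne_zero I
  have h1 : n ≠ 1 := fun e => hI.ne_top (Ideal.absNorm_eq_one_iff.1 e)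
  have hmem : (n : 𝓞 K) ∈ (I : Ideal (𝓞 K)) := Ideal.absNorm_mem _
  obtain e : n = 2 := by omega
  rw [e, Nat.cast_ofNat] at hmem
  rcases hI.mem_or_mem (show phiO * rhoO ^ 2 ∈ (I : Ideal (𝓞 K)) by
      rw [show phiO * rhoO ^ 2 = 2 * (1 + phiO - phiO ^ 2) by
        simp only [rhoO]; linear_combination phiO_eq]
      exact Ideal.mul_mem_right _ _ hmem) with h | h
  · exact eq_span_of_mem prime_phiO hI h
  · exact eq_span_of_mem prime_rhoO hI (hI.mem_of_pow_mem 2 h)

theorem rank_K : Units.rank K = 1 := by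
  have h := InfinitePlace.card_eq_nrRealPlaces_add_nrComplexPlaces (K := K)
  rw [signature.1, signature.2] at h
  show Fintype.card (InfinitePlace K) - 1 = 1
  omega

/-! ### Units modulo squares -/

/-- The coefficient of `φ` in `u (a + b φ + c φ²)²`. -/
def coeffOne {R : Type*} [CommRing R] (u₀ u₁ u₂ a b c : R) : R :=
  u₀ * (2 * a * b + 2 * b * c + 2 * c ^ 2) + u₁ * (a ^ 2 + 4 * b * c) +
    (u₁ * (2 * a * c + b ^ 2 + c ^ 2) + u₂ * (2 * a * b + 2 * b * c + 2 * c ^ 2)) +
    2 * (u₂ * (2 * a * c + b ^ 2 + c ^ 2))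

/-- The coefficient of `φ²` in `u (a + b φ + c φ²)²`. -/
def coeffTwo {R : Type*} [CommRing R] (u₀ u₁ u₂ a b c : R) : R :=
  u₀ * (2 * a * c + b ^ 2 + c ^ 2) + u₁ * (2 * a * b + 2 * b * c + 2 * c ^ 2) +
    u₂ * (a ^ 2 + 4 * b * c) + u₂ * (2 * a * c + b ^ 2 + c ^ 2)

/-- `(u₀, u₁, u₂)` is obstructed modulo `4`. -/
def Obstructed (u₀ u₁ u₂ : ℤ) : Prop :=
  ∀ a b c d : ZMod 4, coeffOne (u₀ : ZMod 4) u₁ u₂ a b c = -6 * d ^ 2 →
    coeffTwo (u₀ : ZMod 4) u₁ u₂ a b c = -d ^ 2 → 2 * a = 0 ∧ 2 * b = 0 ∧ 2 * c = 0 ∧ 2 * d = 0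

/-- An obstructed unit times a square is `X - 6 m² φ - m² φ²` only trivially. -/
theorem no_zero {u₀ u₁ u₂ : ℤ} (hu : Obstructed u₀ u₁ u₂) :
    ∀ n : ℕ, ∀ x y z m : ℤ, x.natAbs + y.natAbs + z.natAbs ≤ n →
      coeffOne u₀ u₁ u₂ x y z = -6 * m ^ 2 → coeffTwo u₀ u₁ u₂ x y z = -m ^ 2 →
      x = 0 ∧ y = 0 ∧ z = 0 := by
  intro n
  induction n using Nat.strong_induction_on with
  | _ n ih =>
    intro x y z m hn e1 e2
    obtain ⟨hx, hy, hz, hm⟩ := hu x y z m
      (by have := congrArg (Int.cast : ℤ → ZMod 4) e1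
          simpa [coeffOne] using this)
      (by have := congrArg (Int.cast : ℤ → ZMod 4) e2
          simpa [coeffTwo] using this)
    have half : ∀ a : ℤ, (2 * (a : ZMod 4)) = 0 → ∃ b, a = 2 * b := fun a h => by
      have h4 : ((2 * a : ℤ) : ZMod 4) = 0 := by push_cast; exact h
      obtain ⟨b, hb⟩ := (ZMod.intCast_zmod_eq_zero_iff_dvd _ 4).mp h4
      exact ⟨b, by omega⟩
    obtain ⟨x', rfl⟩ := half x hx
    obtain ⟨y', rfl⟩ := half y hy
    obtain ⟨z', rfl⟩ := half z hz
    obtain ⟨m', rfl⟩ := half m hm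
    by_cases h0 : x' = 0 ∧ y' = 0 ∧ z' = 0
    · obtain ⟨rfl, rfl, rfl⟩ := h0; simp
    · have := ih (x'.natAbs + y'.natAbs + z'.natAbs) (by omega) x' y' z' m' le_rfl
        (mul_left_cancel₀ (four_ne_zero' ℤ) (by
          simp only [coeffOne] at e1 ⊢; linear_combination e1))
        (mul_left_cancel₀ (four_ne_zero' ℤ) (by
          simp only [coeffTwo] at e2 ⊢; linear_combination e2))
      exact absurd this h0

/-- An obstructed unit times a nonzero square is never `X - 6 m² φ - m² φ²`. -/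
theorem ne_mul_sq {u₀ u₁ u₂ : ℤ} (hu : Obstructed u₀ u₁ u₂) {s : K} (hs : s ≠ 0) (X m : ℚ) :
    el X (-6 * m ^ 2) (-m ^ 2) ≠ el u₀ u₁ u₂ * s ^ 2 := by
  intro h
  obtain ⟨x, y, z, rfl⟩ := exists_el s
  rw [pow_two (el x y z), el_mul, el_mul] at h
  obtain ⟨-, h1, h2⟩ := el_inj h
  set D : ℤ := (x.den : ℤ) * y.den * z.den * m.den with hD
  have hD0 : (D : ℚ) ≠ 0 := by
    rw [hD]; exact_mod_cast by simp
  obtain ⟨a, ha⟩ : ∃ a : ℤ, (a : ℚ) = x * D :=
    ⟨x.num * (y.den * z.den * m.den), by rw [hD]; push_cast; rw [← Rat.mul_den_eq_num x]; ring⟩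
  obtain ⟨b, hb⟩ : ∃ b : ℤ, (b : ℚ) = y * D :=
    ⟨y.num * (x.den * z.den * m.den), by rw [hD]; push_cast; rw [← Rat.mul_den_eq_num y]; ring⟩
  obtain ⟨c, hc⟩ : ∃ c : ℤ, (c : ℚ) = z * D :=
    ⟨z.num * (x.den * y.den * m.den), by rw [hD]; push_cast; rw [← Rat.mul_den_eq_num z]; ring⟩
  obtain ⟨e, he⟩ : ∃ e : ℤ, (e : ℚ) = m * D :=
    ⟨m.num * (x.den * y.den * z.den), by rw [hD]; push_cast; rw [← Rat.mul_den_eq_num m]; ring⟩
  obtain ⟨ra, rb, rc⟩ := no_zero hu _ a b c e le_rfl
    (by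
      have : coeffOne (u₀ : ℚ) u₁ u₂ a b c = -6 * (e : ℚ) ^ 2 := by
        rw [ha, hb, hc, he, coeffOne]; linear_combination -(D : ℚ) ^ 2 * h1
      simp only [coeffOne] at this ⊢
      exact_mod_cast this)
    (by
      have : coeffTwo (u₀ : ℚ) u₁ u₂ a b c = -(e : ℚ) ^ 2 := by
        rw [ha, hb, hc, he, coeffTwo]; linear_combination -(D : ℚ) ^ 2 * h2
      simp only [coeffTwo] at this ⊢
      exact_mod_cast this)
  subst ra rb rc
  simp only [Int.cast_zero] at ha hb hc
  apply hs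
  rw [(mul_eq_zero.mp ha.symm).resolve_right hD0, (mul_eq_zero.mp hb.symm).resolve_right hD0,
    (mul_eq_zero.mp hc.symm).resolve_right hD0]
  simp [el]

theorem obstructed_eps : Obstructed 1 1 1 := by unfold Obstructed; decide +kernel

theorem obstructed_phiRho : Obstructed 0 (-1) 1 := by unfold Obstructed; decide +kernel

theorem obstructed_epsPhiRho : Obstructed 0 1 1 := by unfold Obstructed; decide +kernel

/-- The fundamental unit. -/
abbrev eps : K := phi ^ 2 + phi + 1

theorem eps_eq : eps = el 1 1 1 := by simp [el]; ring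

/-- The fundamental unit as a unit. -/
def epsU : (𝓞 K)ˣ :=
  Units.mkOfMulEqOne (phiO ^ 2 + phiO + 1) (1 + phiO - phiO ^ 2)
    (by linear_combination -phiO * phiO_eq)

@[simp] theorem coe_epsU : ((epsU : 𝓞 K) : K) = eps := by simp [epsU, map_ofNat]

theorem norm_eps : Algebra.norm ℚ eps = 1 := by
  rw [eps_eq, norm_el]
  norm_num

theorem norm_neg_one : Algebra.norm ℚ (-1 : K) = -1 := by
  rw [show (-1 : K) = el (-1) 0 0 by simp [el], norm_el]; norm_num

/-- Every unit is a sign times a power of `ε` times a square. -/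
theorem unit_eq (u : (𝓞 K)ˣ) : ∃ (e : K) (i : ℕ) (η : K), (e = 1 ∨ e = -1) ∧ i ≤ 1 ∧
    ((u : 𝓞 K) : K) = e * eps ^ i * η ^ 2 := by
  classical
  have hodd : Odd (finrank ℚ K) := by rw [finrank_K]; decide
  let q : Fin 1 ≃ Fin (Units.rank K) := finCongr rank_K.symm
  set F : K := ((Units.fundSystem K (q 0) : 𝓞 K) : K) with hF
  have hF0 : F ≠ 0 := by
    rw [hF]; exact Units.coe_ne_zero _
  have decomp : ∀ v : (𝓞 K)ˣ, ∃ (e : K) (i : ℕ) (η : K), (e = 1 ∨ e = -1) ∧ i ≤ 1 ∧ η ≠ 0 ∧
      ((v : 𝓞 K) : K) = e * F ^ i * η ^ 2 := fun v => by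
    obtain ⟨⟨t, f⟩, hv, -⟩ := Units.exist_unique_eq_mul_prod K v
    have ht : (((t : (𝓞 K)ˣ) : 𝓞 K) : K) = 1 ∨ (((t : (𝓞 K)ˣ) : 𝓞 K) : K) = -1 := by
      rcases Units.torsion_eq_one_or_neg_one_of_odd_finrank hodd t with h | h <;> simp [h]
    have hv' : ((v : 𝓞 K) : K) = (((t : (𝓞 K)ˣ) : 𝓞 K) : K) * F ^ f (q 0) := by
      rw [hv, ← Equiv.prod_comp q, Fin.prod_univ_one]
      simp [hF, Units.coe_zpow]
    obtain ⟨j, hj | hj⟩ := Int.even_or_odd' (f (q 0))
    · refine ⟨_, 0, F ^ j, ht, by omega, zpow_ne_zero _ hF0, ?_⟩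
      rw [hv', hj, mul_comm 2 j, zpow_mul, pow_zero, mul_one]
      norm_cast
    · refine ⟨_, 1, F ^ j, ht, le_rfl, zpow_ne_zero _ hF0, ?_⟩
      rw [hv', hj, zpow_add_one₀ hF0, mul_comm 2 j, zpow_mul, pow_one]
      norm_cast
      ring
  -- `± ε` is not a square
  have nsq : ∀ e : K, e = 1 ∨ e = -1 → ∀ η : K, η ≠ 0 → eps ≠ e * η ^ 2 := by
    rintro e (rfl | rfl) η hη h
    · refine ne_mul_sq obstructed_eps (s := 1 / η) (one_div_ne_zero hη) 1 0 ?_
      push_cast
      rw [← eps_eq, h, el]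
      field_simp
      simp
    · have hn := congrArg (Algebra.norm ℚ) h
      rw [norm_eps, map_mul, map_pow, norm_neg_one] at hn
      nlinarith [sq_nonneg (Algebra.norm ℚ η)]
  obtain ⟨e₀, i₀, η₀, he₀, hi₀, hη₀, heps⟩ := decomp epsU
  rw [coe_epsU] at heps
  obtain rfl : i₀ = 1 := by
    rcases Nat.le_one_iff_eq_zero_or_eq_one.mp hi₀ with rfl | h
    · exact absurd (by simpa using heps) (nsq e₀ he₀ η₀ hη₀)
    · exact h
  obtain ⟨e, i, η, he, hi, -, hu⟩ := decomp u
  rcases Nat.le_one_iff_eq_zero_or_eq_one.mp hi with rfl | rfl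
  · exact ⟨e, 0, η, he, by omega, by simpa using hu⟩
  · have he' : e * e₀ = 1 ∨ e * e₀ = -1 := by
      rcases he with rfl | rfl <;> rcases he₀ with rfl | rfl <;> simp
    refine ⟨e * e₀, 1, η / η₀, he', le_rfl, ?_⟩
    rw [hu, heps]
    have hee : e₀ * e₀ = 1 := by rcases he₀ with rfl | rfl <;> simp
    field_simp
    linear_combination -(e * η ^ 2) * hee

end FA.Curve26

end
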