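import Fermat.Agent.Curve26.Descent
import Fermat.Agent.MordellWeil.Structure
import Fermat.Agent.Torsion.RealisedBasic
import Fermat.Agent.Frob.VarChange

/-!
# The Mordell–Weil group of an elliptic quotient of `X₀(26)`

`W² = X³ + 49 X² + 728 X + 2704` has exactly three rational points, `0` and `(0, ±52)`: every point
is twice a point by the two-descent, so the group is finite, and the torsion subgroup has order
three.
-/

set_option autoImplicit false
set_option linter.style.haveILetI false

noncomputable section

open WeierstrassCurve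
open FA.Frob (ratCurve)
open FA.Torsion (shortCurve countMod natCard_torsion_dvd cyclicHom cyclicHom_injective)

namespace FA.Curve26

/-- The integral model. -/
def model26 : WeierstrassCurve ℤ := ⟨0, 49, 0, 728, 2704⟩

/-- The curve `W² = X³ + 49 X² + 728 X + 2704`. -/
abbrev curve : WeierstrassCurve ℚ := ⟨0, 49, 0, 728, 2704⟩

theorem ratCurve_model26 : ratCurve model26 = curve := by ext <;> simp [model26]

instance isElliptic_curve : curve.IsElliptic :=
  ratCurve_model26 ▸ FA.Frob.ratCurve_isElliptic_of_Δ (by decide)

theorem two_divisible (P : curve.toAffine.Point) : ∃ R, 2 • R = P := by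
  haveI : (shortCurve (49 : ℚ) 728 2704).IsElliptic := isElliptic_curve
  exact exists_half P

local instance fact17 : Fact (Nat.Prime 17) := ⟨by norm_num⟩

local instance fact11 : Fact (Nat.Prime 11) := ⟨by norm_num⟩

theorem gcd_count : (countMod model26 17).gcd (countMod model26 11) ∣ 3 := by decide +kernel

theorem finite_torsion_card :
    Finite (AddCommGroup.torsion curve.toAffine.Point) ∧
      Nat.card (AddCommGroup.torsion curve.toAffine.Point) ∣ 3 := by
  haveI := FA.Frob.ratCurve_isElliptic_of_Δ (W := model26) (by decide)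
  obtain ⟨h, hd⟩ := natCard_torsion_dvd 17 model26 (by norm_num) (by decide)
  obtain ⟨-, hd'⟩ := natCard_torsion_dvd 11 model26 (by norm_num) (by decide)
  rw [← ratCurve_model26]
  exact ⟨h, (Nat.dvd_gcd hd hd').trans gcd_count⟩

/-- Every rational point is torsion. -/
theorem isOfFinAddOrder_point (P : curve.toAffine.Point) : IsOfFinAddOrder P := by
  haveI := FA.MordellWeil.mordell curve
  obtain ⟨r, ⟨e⟩⟩ := FA.MordellWeil.exists_equiv_torsion_prod curve.toAffine.Point
  have h0 : (e P).2 = 0 := funext fun i => by
    exfalso
    obtain ⟨R, hR⟩ := two_divisible (e.symm (0, Pi.single i 1))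
    have h := congrArg (fun Q => (e Q).2 i) hR
    simp [map_nsmul] at h
    omega
  obtain ⟨n, hn, hn0⟩ := isOfFinAddOrder_iff_nsmul_eq_zero.mp
    ((AddCommGroup.mem_torsion _).mp (e P).1.2)
  refine isOfFinAddOrder_iff_nsmul_eq_zero.mpr ⟨n, hn, e.injective ?_⟩
  rw [map_nsmul, map_zero]
  exact Prod.ext (Subtype.ext hn0) (by rw [Prod.smul_snd, h0, smul_zero]; rfl)

/-- The point `(0, 52)`. -/
def basePoint : curve.toAffine.Point :=
  .some 0 52 (Affine.equation_iff_nonsingular.mp ((Affine.equation_iff _ _).mpr (by norm_num)))

theorem three_smul_basePoint : 3 • basePoint = 0 := by decide +kernel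

theorem basePoint_injective : Function.Injective (cyclicHom basePoint three_smul_basePoint) :=
  cyclicHom_injective _ (by decide +kernel)

theorem basePoint_surjective :
    Function.Surjective (cyclicHom basePoint three_smul_basePoint) := by
  obtain ⟨hfin, hd⟩ := finite_torsion_card
  let ψ := (cyclicHom basePoint three_smul_basePoint).codRestrict
    (AddCommGroup.torsion curve.toAffine.Point) fun _ =>
      (AddCommGroup.mem_torsion _).mpr (isOfFinAddOrder_point _)
  have hψ : Function.Injective ψ := fun x y e =>
    basePoint_injective (congrArg Subtype.val e)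
  intro P
  obtain ⟨k, hk⟩ := (hψ.bijective_of_nat_card_le
    (by rw [Nat.card_zmod]; exact Nat.le_of_dvd (by norm_num) hd)).2
    ⟨P, (AddCommGroup.mem_torsion _).mpr (isOfFinAddOrder_point P)⟩
  exact ⟨k, congrArg Subtype.val hk⟩

/-- A rational point of `W² = X³ + 49 X² + 728 X + 2704` has `X = 0`. -/
theorem abscissa_eq_zero {X W : ℚ} (h : W ^ 2 = X ^ 3 + 49 * X ^ 2 + 728 * X + 2704) : X = 0 := by
  have hns : curve.toAffine.Nonsingular X W := Affine.equation_iff_nonsingular.mp
    ((Affine.equation_iff _ _).mpr (by linear_combination h))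
  obtain ⟨k, hk⟩ := basePoint_surjective (Affine.Point.some X W hns)
  have h1 : FA.EC.xc (W := curve) (cyclicHom basePoint three_smul_basePoint k) = X := by
    rw [hk, FA.EC.xc_some]
  have key : ∀ j : ZMod 3,
      FA.EC.xc (W := curve) (cyclicHom basePoint three_smul_basePoint j) = 0 := by decide +kernel
  exact h1.symm.trans (key k)

end FA.Curve26

namespace FA.Summary

open FA.Curve26

/-- **The Mordell–Weil group of `W² = X³ + 49 X² + 728 X + 2704`** is `ℤ/3`. -/
theorem point_group_curve26 :
    Nonempty ((⟨0, 49, 0, 728, 2704⟩ : WeierstrassCurve ℚ).toAffine.Point ≃+ ZMod 3) :=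
  ⟨(AddEquiv.ofBijective _ ⟨basePoint_injective, basePoint_surjective⟩).symm⟩

end FA.Summary

end
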